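import Mathlib
import Fermat.Agent.LT.T3.M.GenSpec
import Fermat.Agent.LT.T3.R.Spec
import Fermat.Agent.LT.T7.H484.PairAQSpec

/-!
# Row LT, tower T7, node T7.L2Q.1.H2a.A.0 `PQ484.BaseAQC484` (owner helper87, registry row 2954):
# THE CUT over `ℚ` -- Spec

OFF-MAIN.  Definitions and frozen Props only (the proved top is `BaseAQTop.lean`).  No hole,
nothing assumed.  ADDITIVE (new names only, suffix `87`, namespace
`Fermat.Agent.LT.T7.BQ87`).  Vocabulary: the third cut over `ℚ` of helper484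
(`T7/H484/PairAQSpec.lean` 2232ea92: `BaseAQC484`, `IsGoodAQ484`, `IsDnStabQ484`), the stations
T3.18M / T3.18R of helper14 (`T3/M/Spec.lean`, `T3/M/GenSpec.lean`, `T3/R/Spec.lean`),
byte-identical copies.

MIRROR over `ℚ` (quadratic step, `F = ℚ(√-3)`, `ℓ = 2`, TWO `K_∞`-types `w0`, `w1` downstairs,
REAL place downstairs) of the third cut of helper981 of the cubic node `B981.BaseAC981`
(`T7/B981/PairBaseSpec.lean` cfa0d9f7 + `PairBaseTop.lean` 1139926f).

    baseAQC_of87 : DatQC87 F → UpGoodQC87 F → DnGoodQC87 F → IwSuppC87 F → IwSuppC87 ℚ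
        → DnStabQC87 F → ShapeQC87 F → PQ484.BaseAQC484 T7.ekMulti F            (VERBATIM)

## The cut: THE DATA are separated from their CONSEQUENCES

`DatQ87 F` = the explicit local factors of the base triple: finitely many (`N`) pure tensors
upstairs `T3.M.pureFnM F 𝔑 P' (φ₀ i) (Φ i)` with their coordinates `(A' i, β' i)`, and
downstairs, for the type `t`, `T3.R.pureFnR ℚ _ 𝔫 P (f₀ i) (Fr t i)` (`Fr w0 = F0`,
`Fr w1 = F1`: THE SAME finite components and THE SAME coordinates `(A i, β i)` for the two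
types), and a Haar measure `μc` of `GL₂(ℂ)` with the constant `κc` of the Abel pairs upstairs.

`IsDatQ87` = the properties of the data (mirror of `B981.IsDat981`): the frames `T3.M.FrameM`
upstairs and downstairs (norm datum, `α > 0`); Satake pairs at `P'`, `P`; Abel pairs at the
complex place upstairs (`HasAbelN`) and at the real place downstairs (`T3.R.HasAbelNR`, weights
`0` and `-1`); the coordinates TELESCOPE upstairs and downstairs; the Fourier transform upstairs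
does not vanish at the good parameters; the local shape `CQ801.LocAQ801 c … (T₀ ∪ P)` for every
`i` (Abel relation with the GIVEN constant `c`), unit components over `P` outside `P'`.

* **`DatQC87 F`** (NODE [XL]; existence of the data: T3 core + T6 base change + push-forward
  under the norm + `T3.R.AbelRealC`).
* **`UpGoodQC87 F`** (LEAF [L]; `T3.M.ekOfPairM_c` for `F`; PORT of `B981.UpGoodC981`).
* **`DnGoodQC87 F`** (LEAF [L]; `T3.R.ekOfPairR_c` for `ℚ`, both types; the scalars on the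
  eigenfunctions `IsEigFnQ`).
* **`IwSuppC87 K`** (LEAF [S], ONE field; SAME BODY as `B981.IwSuppC981 K`, used for `F` and `ℚ`).
* **`DnStabQC87 F`** (LEAF [L]; the three properties of `R(f t)` downstairs; PORT of
  `B981.DnStabC981`).
* **`ShapeQC87 F`** (LEAF [L]; bookkeeping: `CQ801.IsAvgPureQ801` for `Ω = Fin N`; PORT of
  `B981.ShapeC981`; bridges `pureFnM = pure305`, `pureFnR = pureQ298`).

## FALSITY CHECKS (helper87)

(a) `P ∩ T₀ = ∅` (`FrameM.prime`, `IsLevFnQ57.div`), so the Satake pairs at `P` and the unit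
components at `T₀` do not collide.  (b) The norm of `a₀' ≠ 0` from the imaginary quadratic field
`F` is positive: `totpos`.  (c) `c` occurs in `IsDatQ87` through `loc` only (the Abel relation
`N`-integral of `F0`, `F1` `= c β'(·/2)`); `c ≠ 0` is a hypothesis of the node and of every
leaf.  (d) `μc` is a FIELD of the data (the node `BaseAQC484` does not fix Haar measures; the
local shape `LocAQ801` does not mention them).  (e) The scalars downstairs are asked on the
eigenfunctions `IsEigFnQ t 𝔫 r u χ c` only (Hecke-eigen at every `v ∤ 𝔫`, in particular on `P`;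
eigenfunctions of the circle means of type `t`); if `c.b v = 0` for some `v ∈ P` then `χ = 0`
and every scalar works.  (f) Every leaf has ALL the hypotheses of the node which make sense for
it (more hypotheses than the cubic leaves: harmless).
-/

set_option autoImplicit false

open AutomorphicForm IsDedekindDomain NumberField MeasureTheory
open scoped ComplexConjugate

noncomputable section

namespace Fermat.Agent.LT.T7.BQ87

open Fermat.Agent.LT Fermat.Agent.LT.H556 Fermat.Agent.LT.H556.A0 Fermat.Agent.LT.T7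
  Fermat.Agent.LT.T7.H305 Fermat.Agent.LT.T7.L2Q Fermat.Agent.LT.T7.H893
  Fermat.Agent.LT.T7.H962 Fermat.Agent.LT.T7.H732 Fermat.Agent.LT.T7.MQ298
  Fermat.Agent.LT.T7.CQ801 Fermat.Agent.LT.T7.PQ484

attribute [local instance] Fermat.Agent.LT.T5.instMeasurableSpaceG

/-- Every infinite place of `ℚ` is real. -/
theorem ratReal87 : ∀ w : InfinitePlace ℚ, w.IsReal :=
  fun w => NumberField.IsTotallyReal.isReal w

/-! ## 1. The data -/

/-- **THE DATA OF THE BASE TRIPLE over `ℚ`**: the frames and the local factors of `N` pure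
tensors upstairs (over `F`) and downstairs (over `ℚ`, two weights). -/
structure DatQ87 (F : Type) [Field F] [NumberField F] where
  /-- the number of pure tensors -/
  N : ℕ
  /-- the Eisenstein-killing places upstairs -/
  P' : Finset (HeightOneSpectrum (𝓞 F))
  /-- the exponents upstairs -/
  e' : HeightOneSpectrum (𝓞 F) → ℕ
  /-- the generator upstairs -/
  a₀' : 𝓞 F
  /-- the generator upstairs as a unit of `F` -/
  α' : Fˣ
  /-- the places downstairs (under `P'`) -/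
  P : Finset (HeightOneSpectrum (𝓞 ℚ))
  /-- the exponents downstairs -/
  e : HeightOneSpectrum (𝓞 ℚ) → ℕ
  /-- the generator downstairs (the norm) -/
  a₀ : 𝓞 ℚ
  /-- the generator downstairs as a unit of `ℚ` -/
  α : ℚˣ
  /-- the Haar measure of `GL₂(ℂ)` -/
  μc : @Measure (GL (Fin 2) ℂ) (borel _)
  /-- the constant of the Abel pairs upstairs for the Haar measure `μc` -/
  κc : ℂ
  /-- the Satake coefficients upstairs -/
  A' : Fin N → HeightOneSpectrum (𝓞 F) → ℤ × ℤ → ℂ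
  /-- the Abel transforms upstairs -/
  β' : Fin N → InfinitePlace F → ℝ × ℝ → ℂ
  /-- the components upstairs at the finite places -/
  φ₀ : Fin N → ∀ w : HeightOneSpectrum (𝓞 F), GL (Fin 2) (w.adicCompletion F) → ℂ
  /-- the components upstairs at the infinite places -/
  Φ : Fin N → InfinitePlace F → GL (Fin 2) ℂ → ℂ
  /-- the Satake coefficients downstairs -/
  A : Fin N → HeightOneSpectrum (𝓞 ℚ) → ℤ × ℤ → ℂ
  /-- the Abel transforms downstairs (the same for the two weights) -/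
  β : Fin N → InfinitePlace ℚ → ℝ × ℝ → ℂ
  /-- the components downstairs at the finite places (the same for the two weights) -/
  f₀ : Fin N → ∀ v : HeightOneSpectrum (𝓞 ℚ), GL (Fin 2) (v.adicCompletion ℚ) → ℂ
  /-- the components downstairs at the real place, weight `0` -/
  F0 : Fin N → GL (Fin 2) ℝ → ℂ
  /-- the components downstairs at the real place, weight `-1` -/
  F1 : Fin N → GL (Fin 2) ℝ → ℂ

section Dat

variable {F : Type} [Field F] [NumberField F]

/-- The component at the real place of the `i`-th pure tensor downstairs of type `t`. -/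
def DatQ87.Fr (D : DatQ87 F) : QWt → Fin D.N → GL (Fin 2) ℝ → ℂ
  | QWt.w0 => D.F0
  | QWt.w1 => D.F1

/-- The function upstairs: the sum of the pure tensors (`T3.M.pureFnM`) of level `𝔑`. -/
def DatQ87.up (D : DatQ87 F) (𝔑 : Ideal (𝓞 F)) : G F → ℂ := fun g =>
  ∑ i : Fin D.N, T3.M.pureFnM F 𝔑 D.P' (D.φ₀ i) (D.Φ i) g

/-- The function downstairs of type `t`: the sum of the pure tensors (`T3.R.pureFnR`) of level
`𝔫`. -/
def DatQ87.dn (D : DatQ87 F) (t : QWt) (𝔫 : Ideal (𝓞 ℚ)) : G ℚ → ℂ := fun g =>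
  ∑ i : Fin D.N, T3.R.pureFnR ℚ ratReal87 𝔫 D.P (D.f₀ i) (fun _ => D.Fr t i) g

/-- The coordinates upstairs. -/
def DatQ87.crdUp (D : DatQ87 F) : T3.M.CoordM F D.P' → ℂ := fun p =>
  ∑ i : Fin D.N, T3.M.pureCoordM F D.P' (D.A' i) (D.β' i) p

/-- The coordinates downstairs. -/
def DatQ87.crdDn (D : DatQ87 F) : T3.M.CoordM ℚ D.P → ℂ := fun p =>
  ∑ i : Fin D.N, T3.M.pureCoordM ℚ D.P (D.A i) (D.β i) p

open Classical in
/-- **THE PROPERTIES OF THE DATA over `ℚ`** (mirror of `B981.IsDat981`). -/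
structure IsDatQ87 (Φe : HeckeEigensystem F ℂ) (B : L2QBase962 F) (𝔫 : Ideal (𝓞 ℚ))
    (c : ℂ) (T₀ : Finset (HeightOneSpectrum (𝓞 ℚ)))
    (n : HeightOneSpectrum (𝓞 F) → ℕ) (m : HeightOneSpectrum (𝓞 ℚ) → ℕ)
    (D : DatQ87 F) : Prop where
  /-- `μc` is a Haar measure -/
  haar_c : @Measure.IsHaarMeasure _ _ _ (borel _) D.μc
  /-- the frame upstairs (the datum of `T7.GoodEKM` for `𝔫 𝒪_F`) -/
  frame_up : T3.M.FrameM F (upI (K' := F) 𝔫) D.P' D.e' D.a₀' D.α'
  /-- the frame downstairs (the norm datum) -/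
  frame_dn : T3.M.FrameM ℚ 𝔫 D.P D.e D.a₀ D.α
  /-- the generator downstairs is positive -/
  totpos : T3.R.IsTotPos ℚ ratReal87 D.α
  /-- the places of `P'` are outside `S'` -/
  out : ∀ w ∈ D.P', w ∉ B.S'
  /-- the non-vanishing clause of `T7.GoodEKM` -/
  good : ∀ z : HeightOneSpectrum (𝓞 F) → ℂ,
    (∀ w ∈ D.P', z w ^ 2 - Φe.a w * z w + Φe.b w = 0) → ∏ w ∈ D.P', z w ^ D.e' w ≠ 1
  /-- `P` is the set of the places under `P'` -/
  under : ∀ v : HeightOneSpectrum (𝓞 ℚ), v ∈ D.P ↔ ∃ w ∈ D.P', PlaceOver ℚ F v w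
  κc_ne : D.κc ≠ 0
  symA' : ∀ (i : Fin D.N) (w : HeightOneSpectrum (𝓞 F)), T3.AS.IsSymFin (D.A' i w)
  symβ' : ∀ (i : Fin D.N) (w : InfinitePlace F), T3.AS.IsSymBump (D.β' i w)
  sat_up : ∀ (i : Fin D.N), ∀ w ∈ D.P', T3.AS.IsSatakePair w (D.φ₀ i w) (D.A' i w)
  test_up : ∀ (i : Fin D.N) (w : InfinitePlace F), T3.AS.IsCplxTest (D.Φ i w)
  smooth_up : ∀ (i : Fin D.N) (w : InfinitePlace F), T3.AS.IsCplxSmooth (D.Φ i w)
  abel_up : ∀ (i : Fin D.N) (w : InfinitePlace F), T3.AS.HasAbelN (D.Φ i w) (D.β' i w)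
  acts_up : ∀ (i : Fin D.N) (w : InfinitePlace F),
    T3.AS.ActsBy D.μc (D.Φ i w) (D.κc * ∫ x : ℝ × ℝ, D.β' i w x)
  symA : ∀ (i : Fin D.N) (v : HeightOneSpectrum (𝓞 ℚ)), T3.AS.IsSymFin (D.A i v)
  symβ : ∀ (i : Fin D.N) (v : InfinitePlace ℚ), T3.AS.IsSymBump (D.β i v)
  sat_dn : ∀ (i : Fin D.N), ∀ v ∈ D.P, T3.AS.IsSatakePair v (D.f₀ i v) (D.A i v)
  test_dn : ∀ (t : QWt) (i : Fin D.N), T6.IsArchTestR t.wt (D.Fr t i)
  abel_dn : ∀ (t : QWt) (i : Fin D.N) (v : InfinitePlace ℚ),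
    T3.R.HasAbelNR (D.Fr t i) (D.β i v)
  /-- the coordinates upstairs telescope along `c₀' = coordTorM F P' e' α'` -/
  tel_up : ∀ Δ : T3.M.CoordM F D.P',
    HasSum (fun j : ℤ => D.crdUp (Δ + j • T3.M.coordTorM F D.P' D.e' D.α')) 0
  /-- the coordinates downstairs telescope along `c₀ = coordTorM ℚ P e α` -/
  tel_dn : ∀ Δ : T3.M.CoordM ℚ D.P,
    HasSum (fun j : ℤ => D.crdDn (Δ + j • T3.M.coordTorM ℚ D.P D.e D.α)) 0
  /-- the Fourier transform upstairs does not vanish at the good parameters -/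
  ft_ne : ∀ z₁ z₂ : HeightOneSpectrum (𝓞 F) → ℂ,
    (∀ w ∈ D.P', z₁ w ≠ 0) → (∀ w ∈ D.P', z₂ w ≠ 0) →
    (∀ z : HeightOneSpectrum (𝓞 F) → ℂ, (∀ w ∈ D.P', z w = z₁ w ∨ z w = z₂ w) →
      ∏ w ∈ D.P', z w ^ D.e' w ≠ 1) →
    T3.M.ftCoordM F D.P' D.crdUp z₁ z₂ ≠ 0
  /-- unit components at the places over `P` which are not in `P'` -/
  unit_rest : ∀ (i : Fin D.N) (w : HeightOneSpectrum (𝓞 F)), w ∉ D.P' →
    (∃ v ∈ D.P, PlaceOver ℚ F v w) → D.φ₀ i w = unitFn893 0
  /-- the local shape of every triple of pure tensors, for the set `T = T₀ ∪ P` -/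
  loc : ∀ i : Fin D.N,
    LocAQ801 c T₀ n m (T₀ ∪ D.P) (D.φ₀ i) (D.Φ i) (D.f₀ i) (D.F0 i) (D.F1 i)

end Dat

/-! ## 2. The node and the leaves -/

section Nodes

variable (F : Type) [Field F] [NumberField F]

/-- **NODE A.0.D over `ℚ` = DATA (existence; T3 core + T6 base change + push-forward under the
norm + `T3.R.AbelRealC`).**  For a cusp form `Φ` over `F` with good multi-place EK data, a
common part of helper60 with `3 ∈ S`, every level with the level properties, the exponents of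
the level and every constant `c ≠ 0` there are data with `IsDatQ87`.
Construction (mirror of `B981.DatC981`).  `(P', e', a₀')` from `T7.GoodEKM F Φ (𝔫 𝒪_F) S'`;
`Φ' ∈ SymSpanM F P'` telescoping with non-vanishing Fourier transform from `T3.M.EKCoreC`
(closed), written as a finite sum of symmetric pure tensors `pureCoordM (A' i) (β' i)`;
`φ₀ i w` from `T3.AS.SatakeLocC` at `w ∈ P'`, `unitFn893 (n w)` elsewhere; `μc`, `κc`,
`Φ i w` from `T3.AS.AbelCplxSmoothC` / `T3.M.pairExistM_c`.  Downstairs: `P` = the primes under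
`P'`, `e v = ∑_{w ∣ v, w ∈ P'} f_w e'_w`, `a₀ = N_{F/ℚ} a₀' > 0`; `A i v` = the push-forward of
`⊗_{w ∣ v} A' i w` under `(m_w) ↦ ∑ f_w m_w`, `f₀ i v` from `T3.AS.SatakeLocC` at `v ∈ P`,
`unitFn893 (m v)` elsewhere; `β i = halfQ801 c (β' i w)` (`w` the complex place of `F`),
`F0 i`, `F1 i` of weight `0`, `-1` with `N`-integral `β i` from `T3.R.AbelRealC`.  Telescoping
downstairs: push-forward of the coordinates upstairs under the norm of the coordinate groups
(`N(c₀') = c₀`: `log |N α'| = 2 log |α'|_w`), station T3.19 of helper14 (`Push/EKPush.lean`) is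
the cubic model. -/
def DatQC87 : Prop :=
  HasSqrtNegThree F → IsImagQuad F →
    ∀ Φ : HeckeEigensystem F ℂ, A0.IsCuspAdelicSph0 F Φ → ConstOnFibresQ Φ → ekMulti F Φ →
      ∀ B : L2Q.H60.L2QBase F, L2Q.H60.IsL2QBase Φ B → L2Q.H60.IsRamQ60 B →
      ∀ 𝔫 : Ideal (𝓞 ℚ), CQ57.IsLevQ57 (toBase962_732 B) 𝔫 →
      ∀ (T₀ : Finset (HeightOneSpectrum (𝓞 ℚ)))
        (n n₀ : HeightOneSpectrum (𝓞 F) → ℕ) (m : HeightOneSpectrum (𝓞 ℚ) → ℕ),
        CQ57.IsLevFnQ57 (toBase962_732 B) 𝔫 T₀ n n₀ m →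
        ∀ c : ℂ, c ≠ 0 →
          ∃ D : DatQ87 F, IsDatQ87 Φ (toBase962_732 B) 𝔫 c T₀ n m D

/-- **LEAF A.0.U over `ℚ` = UP** (`T3.M.ekOfPairM_c` for `F`; PORT of `B981.UpGoodC981`,
`ℓ = 2`).  The sum upstairs is a test function of level `𝔫 𝒪_F`, Eisenstein-killing with
Eisenstein-killing adjoint, supported at `P' ∪ S_∞`, acts by a scalar `c₁(C)` on the
eigenfunctions of the base level, `c₁ ≠ 0` on the class of `Φ`.
Proof.  `F` is totally complex.  `(D.crdUp, D.up 𝔑) ∈ pairSpanMS F μc κc 𝔑 P'`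
(`mem_pairSpanM_sum` with coefficients `1`), `tel_up`, `frame_up`: `ekOfPairM_c` gives the first
four properties and scalars `c z₁ z₂ m`; `c₁ C = 1` if `C.b w = 0` for some `w ∈ P'` (then
`χ = 0`), `= c (root1) (root2) C.m` otherwise; `c₁ ≠ 0`: `ft_ne`, `good`. -/
def UpGoodQC87 : Prop :=
  HasSqrtNegThree F → IsImagQuad F →
    ∀ Φ : HeckeEigensystem F ℂ, A0.IsCuspAdelicSph0 F Φ → ConstOnFibresQ Φ → ekMulti F Φ →
      ∀ B : L2Q.H60.L2QBase F, L2Q.H60.IsL2QBase Φ B → L2Q.H60.IsRamQ60 B →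
      ∀ 𝔫 : Ideal (𝓞 ℚ), CQ57.IsLevQ57 (toBase962_732 B) 𝔫 →
      ∀ (T₀ : Finset (HeightOneSpectrum (𝓞 ℚ)))
        (n n₀ : HeightOneSpectrum (𝓞 F) → ℕ) (m : HeightOneSpectrum (𝓞 ℚ) → ℕ),
        CQ57.IsLevFnQ57 (toBase962_732 B) 𝔫 T₀ n n₀ m →
        ∀ c : ℂ, c ≠ 0 →
        ∀ D : DatQ87 F, IsDatQ87 Φ (toBase962_732 B) 𝔫 c T₀ n m D →
          T5.IsTestFn (upI (K' := F) 𝔫) T5.trivType (D.up (upI (K' := F) 𝔫)) ∧
          T5.IsEK (toBase962_732 B).R'.μ (D.up (upI (K' := F) 𝔫)) ∧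
          T5.IsEK (toBase962_732 B).R'.μ (T5.adjointFn (D.up (upI (K' := F) 𝔫))) ∧
          T3.M.IsSuppAtM F (upI (K' := F) 𝔫) D.P' (D.up (upI (K' := F) 𝔫)) ∧
          ∃ c₁ : EigData F → ℂ,
            (∀ (χ : G F → ℂ) (C : EigData F),
              IsEigFn (toBase962_732 B).𝔑₀ (toBase962_732 B).R'.r 2 (toBase962_732 B).o χ C →
              ∀ y : G F, T5.Rconv (toBase962_732 B).R'.μ (D.up (upI (K' := F) 𝔫)) χ y
                = c₁ C * χ y) ∧
            ∀ C : EigData F, C.AgreeOut (toBase962_732 B).S' (eigOf Φ) → c₁ C ≠ 0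

/-- **LEAF A.0.W over `ℚ` = DOWN** (`T3.R.ekOfPairR_c` for `ℚ`, weights `0` and `-1`).  For
each type `t` the sum downstairs is a test function of level `𝔫` and type `t`,
Eisenstein-killing with Eisenstein-killing adjoint, supported at `P ∪ S_∞`, and acts by scalars
on the eigenfunctions of type `t`.
Proof.  `(D.crdDn, D.dn t 𝔫) ∈ T3.R.pairSpanR ℚ _ 𝔫 P (fun _ => t.wt)`
(`T3.R.mem_pairSpanR_sum` with coefficients `1`: `symA`, `symβ`, `sat_dn`, `test_dn`,
`abel_dn`), `tel_dn`, `frame_dn`, `totpos`: `T3.R.ekOfPairR_c` gives the test function of type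
`T3.R.typeR ℚ _ (fun _ => t.wt)` (`= t.type` on `K_∞`: `T6.wtChar`, bridge of the `ℚ`-step),
EK, EK adjoint, the support, and the scalars on the classes; an eigenfunction `χ`
(`IsEigFnQ`) is Hecke-eigen at `v ∈ P` (`v ∤ 𝔫`: `frame_dn.prime`) and belongs to the class of
its circle means (`T3.R.LocOfMeanRC`, `T3.R.MeanActsRC`; `c.b v = 0` for some `v ∈ P`:
`χ = 0`). -/
def DnGoodQC87 : Prop :=
  HasSqrtNegThree F → IsImagQuad F →
    ∀ Φ : HeckeEigensystem F ℂ, A0.IsCuspAdelicSph0 F Φ → ConstOnFibresQ Φ → ekMulti F Φ →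
      ∀ B : L2Q.H60.L2QBase F, L2Q.H60.IsL2QBase Φ B → L2Q.H60.IsRamQ60 B →
      ∀ 𝔫 : Ideal (𝓞 ℚ), CQ57.IsLevQ57 (toBase962_732 B) 𝔫 →
      ∀ (T₀ : Finset (HeightOneSpectrum (𝓞 ℚ)))
        (n n₀ : HeightOneSpectrum (𝓞 F) → ℕ) (m : HeightOneSpectrum (𝓞 ℚ) → ℕ),
        CQ57.IsLevFnQ57 (toBase962_732 B) 𝔫 T₀ n n₀ m →
        ∀ c : ℂ, c ≠ 0 →
        ∀ D : DatQ87 F, IsDatQ87 Φ (toBase962_732 B) 𝔫 c T₀ n m D →
        ∀ t : QWt,
          T5.IsTestFn 𝔫 t.type (D.dn t 𝔫) ∧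
          T5.IsEK (toBase962_732 B).R.μ (D.dn t 𝔫) ∧
          T5.IsEK (toBase962_732 B).R.μ (T5.adjointFn (D.dn t 𝔫)) ∧
          T3.M.IsSuppAtM ℚ 𝔫 D.P (D.dn t 𝔫) ∧
          ∃ cs : EigData ℚ → ℂ,
            ∀ (χ : G ℚ → ℂ) (cd : EigData ℚ),
              IsEigFnQ t 𝔫 (toBase962_732 B).R.r (toBase962_732 B).u χ cd →
              ∀ g : G ℚ, T5.Rconv (toBase962_732 B).R.μ (D.dn t 𝔫) χ g = cs cd * χ g

end Nodes

section OneField

variable (K : Type) [Field K] [NumberField K]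

/-- **LEAF A.0.S = IW-SUPP (one field; SAME BODY as `B981.IwSuppC981 K`).**  A function of
compact support which is supported at `P ∪ S_∞` (`T3.M.IsSuppAtM`) is Iwahori-supported along
places `o j ∣ 𝔫` outside `P`, in a compact set.
Proof.  `C = tsupport f` (`T5.H32.isIwSupported_of_support32`); at `o j` the entries of
`y - 1`, `y⁻¹ - 1` lie in the closure of `𝔫`, which is contained in the maximal ideal. -/
def IwSuppC87 : Prop :=
  ∀ (𝔫 : Ideal (𝓞 K)) (P : Finset (HeightOneSpectrum (𝓞 K))) (l : ℕ)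
    (o : ℕ → HeightOneSpectrum (𝓞 K)),
    (∀ j < l, (o j).asIdeal ∣ 𝔫) → (∀ j < l, o j ∉ P) →
    ∀ f : G K → ℂ, HasCompactSupport f → T3.M.IsSuppAtM K 𝔫 P f →
      ∃ C : Set (G K), IsCompact C ∧ T5.H32.IsIwSupported32 l o C f

end OneField

section Nodes2

variable (F : Type) [Field F] [NumberField F]

/-- **LEAF A.0.C over `ℚ` = DN-STAB** (PORT of `B981.DnStabC981`).  Test functions `f t` of
level `𝔫` and type `t` downstairs which are supported at `P ∪ S_∞` (`P` prime to `𝔫`) and act by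
scalars on the eigenfunctions of type `t` have the three properties of `PQ484.IsDnStabQ484`.
Proof (POINTWISE in `y`, as in the cubic case).  On the support of `f t` the component `y_u`
lies in `U(𝔫)_u ⊆ I_u` (`IsSuppAtM`, `u ∉ P` because `u ∣ 𝔫`: `IsLevQ57.u_level`).  `wfn`:
`R(f t) ψ` is a cusp function of type `t` (left invariance; level and `K_∞`-type: substitution
and the type of `f t`; ray: `r` is central; constant term: Fubini; bounded, continuous),
invariant under the positive scalars (central), Iwahori-invariant at `u`.  `cls`: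
`R(f t) ψ = cs c · ψ` and `IsEigFnQ` is stable under scalars.  `comm`: left multiplication by
`y_u ∈ I_u` permutes the cosets `h I_u`; `z` is central. -/
def DnStabQC87 : Prop :=
  HasSqrtNegThree F → IsImagQuad F →
    ∀ (Φ : HeckeEigensystem F ℂ) (B : L2Q.H60.L2QBase F), L2Q.H60.IsL2QBase Φ B →
      L2Q.H60.IsRamQ60 B →
      ∀ 𝔫 : Ideal (𝓞 ℚ), CQ57.IsLevQ57 (toBase962_732 B) 𝔫 →
      ∀ (P : Finset (HeightOneSpectrum (𝓞 ℚ))), (∀ v ∈ P, ¬ v.asIdeal ∣ 𝔫) →
      ∀ f : QWt → G ℚ → ℂ, (∀ t : QWt, T5.IsTestFn 𝔫 t.type (f t)) →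
        (∀ t : QWt, T3.M.IsSuppAtM ℚ 𝔫 P (f t)) →
        (∀ t : QWt, ∃ cs : EigData ℚ → ℂ,
          ∀ (χ : G ℚ → ℂ) (cd : EigData ℚ),
            IsEigFnQ t 𝔫 (toBase962_732 B).R.r (toBase962_732 B).u χ cd →
            ∀ g : G ℚ, T5.Rconv (toBase962_732 B).R.μ (f t) χ g = cs cd * χ g) →
        IsDnStabQ484 (toBase962_732 B) 𝔫 f

/-- **LEAF A.0.P over `ℚ` = SHAPE (bookkeeping; PORT of `B981.ShapeC981`).**  The sums of the
data are an average of pure tensors with the local shape `CQ801.LocAQ801 c`, constant `1`: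
`Ω = Fin N` (discrete, counting measure), `T a = T₀ ∪ P`, `T' a` = the finite set of the places
of `F` over `T₀ ∪ P`.
Proof.  BRIDGES `T3.M.pureFnM F 𝔑 P' (φ₀ i) (Φ i) = pure305 T' (φ₀ i) (Φ i)` (at a finite place
`w ∉ P'` the condition of `OutsideUM` is `InU (n w)`: `IsLevFnQ57.lev_up`; unit components:
`loc`, `unit_rest`) and `T3.R.pureFnR ℚ _ 𝔫 P (f₀ i) (fun _ => Fr t i)
= pureQ298 (T₀ ∪ P) (f₀ i) (Fr t i)` (`IsLevFnQ57.lev_dn`; `T3.R.reGL = MQ298.reGLQ298`: the
same term).  Every member is a test function (`T3.M.PureRegMC`, `T3.R.PureRegRC`: closed).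
Joint continuity and the common compact support: `Fin N` is finite and discrete.  The integral
over the counting measure is the sum. -/
def ShapeQC87 : Prop :=
  HasSqrtNegThree F → IsImagQuad F →
    ∀ Φ : HeckeEigensystem F ℂ, A0.IsCuspAdelicSph0 F Φ → ConstOnFibresQ Φ → ekMulti F Φ →
      ∀ B : L2Q.H60.L2QBase F, L2Q.H60.IsL2QBase Φ B → L2Q.H60.IsRamQ60 B →
      ∀ 𝔫 : Ideal (𝓞 ℚ), CQ57.IsLevQ57 (toBase962_732 B) 𝔫 →
      ∀ (T₀ : Finset (HeightOneSpectrum (𝓞 ℚ)))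
        (n n₀ : HeightOneSpectrum (𝓞 F) → ℕ) (m : HeightOneSpectrum (𝓞 ℚ) → ℕ),
        CQ57.IsLevFnQ57 (toBase962_732 B) 𝔫 T₀ n n₀ m →
        ∀ c : ℂ, c ≠ 0 →
        ∀ D : DatQ87 F, IsDatQ87 Φ (toBase962_732 B) 𝔫 c T₀ n m D →
          IsAvgPureQ801 (upI (K' := F) 𝔫) 𝔫 T₀ (LocAQ801 c T₀ n m) 1
            (D.up (upI (K' := F) 𝔫)) (D.dn QWt.w0 𝔫) (D.dn QWt.w1 𝔫)

end Nodes2

/-! ## Appendix: the equation lemmas of the definitions of this file are realised HERE -/

theorem eqns_realised_baseAQ87 : True := by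
  have _a1 := @DatQ87.Fr.eq_1
  have _a2 := @DatQ87.Fr.eq_2
  have _a3 := @DatQ87.Fr.eq_def
  have _a4 := @DatQ87.Fr.eq_unfold
  have _b1 := @DatQ87.up.eq_1
  have _b2 := @DatQ87.up.eq_def
  have _b3 := @DatQ87.up.eq_unfold
  have _c1 := @DatQ87.dn.eq_1
  have _c2 := @DatQ87.dn.eq_def
  have _c3 := @DatQ87.dn.eq_unfold
  have _d1 := @DatQ87.crdUp.eq_1
  have _d2 := @DatQ87.crdUp.eq_def
  have _d3 := @DatQ87.crdUp.eq_unfold
  have _e1 := @DatQ87.crdDn.eq_1
  have _e2 := @DatQ87.crdDn.eq_def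
  have _e3 := @DatQ87.crdDn.eq_unfold
  have _f1 := @DatQC87.eq_1
  have _f2 := @DatQC87.eq_def
  have _f3 := @DatQC87.eq_unfold
  have _g1 := @UpGoodQC87.eq_1
  have _g2 := @UpGoodQC87.eq_def
  have _g3 := @UpGoodQC87.eq_unfold
  have _h1 := @DnGoodQC87.eq_1
  have _h2 := @DnGoodQC87.eq_def
  have _h3 := @DnGoodQC87.eq_unfold
  have _i1 := @IwSuppC87.eq_1
  have _i2 := @IwSuppC87.eq_def
  have _i3 := @IwSuppC87.eq_unfold
  have _j1 := @DnStabQC87.eq_1
  have _j2 := @DnStabQC87.eq_def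
  have _j3 := @DnStabQC87.eq_unfold
  have _k1 := @ShapeQC87.eq_1
  have _k2 := @ShapeQC87.eq_def
  have _k3 := @ShapeQC87.eq_unfold
  trivial

end Fermat.Agent.LT.T7.BQ87

end
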