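import Mathlib
import Fermat.Agent.LT.T7.H801.PairAQCutSpec
import Fermat.Agent.LT.T7.H87.BaseAQSpec

/-!
# Row LT, tower T7, node T7.L2Q.1.H2a.A.0b `CQ801.BaseAQC801` (the base of the first pair over
# `ℚ` FOR THE WORDS OF SPHERE MEANS; registry row 2984): CUT by helper87 -- Spec

OFF-MAIN.  Definitions and frozen Props only (the proved top is `BaseAQ801Top.lean`).  No hole,
nothing assumed.  ADDITIVE (new names only, suffix `87`, namespace
`Fermat.Agent.LT.T7.BQ87`).  Vocabulary: the cut of helper801 (`T7/H801/PairAQCutSpec.lean`: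
`IsMWord801`, `IsBaseAQ801`, `BaseAQC801`) and the cut of `PQ484.BaseAQC484` by helper87
(`T7/H87/BaseAQSpec.lean`: `DatQ87`, `IsDatQ87` and the leaves), byte-identical copies.

    baseAQC801_of87 : DatQC87 F → StepMDatQC87 F → UpGoodQC87 F → DnGoodQC87 F → IwSuppC87 F
        → IwSuppC87 ℚ → DnStabQC87 F → ShapeQC87 F → CQ801.BaseAQC801 T7.ekMulti F   (VERBATIM)

## The cut: INDUCTION ON THE WORD OF SPHERE MEANS, ON THE LEVEL OF THE DATA

The leaves of the cut of `BaseAQC484` (`UpGoodQC87`, `DnGoodQC87`, `IwSuppC87`, `DnStabQC87`,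
`ShapeQC87`) are statements on ARBITRARY data with `IsDatQ87`: they are REUSED VERBATIM for the
data of every word.  The only new node:

* **`StepMDatQC87 F`** (NODE [XL]; THE STEP `M_{w,d}` ON THE DATA, re-synthesis downstairs): data
  `D` with `IsDatQ87` and a radius `d > 0` at the complex place `w` of `F` give data `D'` with
  `IsDatQ87` whose operators on the eigenfunctions are those of `D` multiplied by `C.m w d`
  (upstairs on `IsEigFn`; downstairs on `IsEigFnQ t` with `IsBCDataQ t c C S`).

Construction of `D'` (header of `T7/H801/PairAQCutSpec.lean`, helper801).  The frames, `μc`, `κc`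
and the finite components are those of `D`.  Upstairs `Φ' i w` = the sphere mean of radius `d`
of `Φ i w` (right convolution with the sphere measure `σ_d` of `GL₂(ℂ)`; the cubic leaves of
helper445 for `B981.StepMC981`: `SphPureC445`, `SphOpC445`, `SphArchC445` in ONE field), with the
Abel transform `β'' = β' ⋆ A(σ_d)` (`A(σ_d)` = the Abel transform of the sphere measure: a finite
positive symmetric measure with compact support): `R(D'.up) χ = C.m w d · R(D.up) χ` because `χ`
is an eigenfunction of the sphere means.  Downstairs RE-SYNTHESIS: `F0' i`, `F1' i` of weight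
`0`, `-1` with `N`-integral `halfQ801 c β''` (`T3.R.AbelRealC`); the operator of a pure tensor
on an eigenfunction of type `t` and parameter `s` is the product of the Satake part and of the
spherical transform of the real component at `s`, which is the Fourier--Laplace transform of
its `N`-integral (`T6.sphTransR`, `T6.ArchMatchC` (b)): it is multiplied by the transform of
the push-forward of `A(σ_d)` under `x ↦ 2 x`, i.e. by `4π · sphC (2 s) (cosh d) = C.m w d`
(`IsBCDataQ`, second clause).  The coordinates of `D'` are the convolutions of the coordinates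
of `D` with `A(σ_d)` (resp. its push-forward) in the archimedean variable: telescoping is
preserved (the convolution commutes with the translations of the coordinate group), the
Fourier transform at the good parameters is multiplied by the total mass `≠ 0`.

FALSITY CHECKS (helper87).  (a) `F` has ONE infinite place; the statement is for every
`w : InfinitePlace F`.  (b) The relations are asked on the eigenfunctions only; for `χ = 0`
they are empty.  (c) NO relation between `D'` and `D` other than the two operator relations is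
asked (the top does not need more).  (d) `c` is the same for `D` and `D'` (the Abel relation
`N`-integral downstairs `= c β''(·/2)` is part of `IsDatQ87.loc` for `D'`).  (e) If `c.m` is not
of the form `2π · sphRad t.wt s ∘ cosh` there is no `C` with `IsBCDataQ t c C S`: the relation
downstairs is empty.
-/

set_option autoImplicit false

open AutomorphicForm IsDedekindDomain NumberField MeasureTheory
open scoped ComplexConjugate

noncomputable section

namespace Fermat.Agent.LT.T7.BQ87

open Fermat.Agent.LT Fermat.Agent.LT.H556 Fermat.Agent.LT.H556.A0 Fermat.Agent.LT.T7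
  Fermat.Agent.LT.T7.H305 Fermat.Agent.LT.T7.L2Q Fermat.Agent.LT.T7.H893
  Fermat.Agent.LT.T7.H962 Fermat.Agent.LT.T7.H732 Fermat.Agent.LT.T7.MQ298
  Fermat.Agent.LT.T7.CQ801 Fermat.Agent.LT.T7.PQ484

attribute [local instance] Fermat.Agent.LT.T5.instMeasurableSpaceG

section Nodes

variable (F : Type) [Field F] [NumberField F]

/-- **NODE A.0b.M over `ℚ` = THE STEP `M_{w,d}` ON THE DATA** (sphere mean upstairs,
re-synthesis downstairs).  See the header. -/
def StepMDatQC87 : Prop :=
  HasSqrtNegThree F → IsImagQuad F →
    ∀ Φ : HeckeEigensystem F ℂ, A0.IsCuspAdelicSph0 F Φ → ConstOnFibresQ Φ → ekMulti F Φ →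
      ∀ B : L2Q.H60.L2QBase F, L2Q.H60.IsL2QBase Φ B → L2Q.H60.IsRamQ60 B →
      ∀ 𝔫 : Ideal (𝓞 ℚ), CQ57.IsLevQ57 (toBase962_732 B) 𝔫 →
      ∀ (T₀ : Finset (HeightOneSpectrum (𝓞 ℚ)))
        (n n₀ : HeightOneSpectrum (𝓞 F) → ℕ) (m : HeightOneSpectrum (𝓞 ℚ) → ℕ),
        CQ57.IsLevFnQ57 (toBase962_732 B) 𝔫 T₀ n n₀ m →
        ∀ c : ℂ, c ≠ 0 →
        ∀ D : DatQ87 F, IsDatQ87 Φ (toBase962_732 B) 𝔫 c T₀ n m D →
        ∀ (w : InfinitePlace F) (d : ℝ), 0 < d →
          ∃ D' : DatQ87 F, IsDatQ87 Φ (toBase962_732 B) 𝔫 c T₀ n m D' ∧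
            (∀ (χ : G F → ℂ) (C : EigData F),
              IsEigFn (toBase962_732 B).𝔑₀ (toBase962_732 B).R'.r 2 (toBase962_732 B).o χ C →
              ∀ y : G F, T5.Rconv (toBase962_732 B).R'.μ (D'.up (upI (K' := F) 𝔫)) χ y
                = C.m w d * T5.Rconv (toBase962_732 B).R'.μ (D.up (upI (K' := F) 𝔫)) χ y) ∧
            ∀ (t : QWt) (χ : G ℚ → ℂ) (cd : EigData ℚ) (C : EigData F),
              IsEigFnQ t 𝔫 (toBase962_732 B).R.r (toBase962_732 B).u χ cd →
              IsBCDataQ t cd C (toBase962_732 B).S →
              ∀ y : G ℚ, T5.Rconv (toBase962_732 B).R.μ (D'.dn t 𝔫) χ y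
                = C.m w d * T5.Rconv (toBase962_732 B).R.μ (D.dn t 𝔫) χ y

end Nodes

/-! ## Appendix: the equation lemmas of the definitions of this file are realised HERE -/

theorem eqns_realised_baseAQ801_87 : True := by
  have _a1 := @StepMDatQC87.eq_1
  have _a2 := @StepMDatQC87.eq_def
  have _a3 := @StepMDatQC87.eq_unfold
  trivial

end Fermat.Agent.LT.T7.BQ87

end
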