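import Mathlib
import Fermat.Agent.LT.T7.H87.BaseAQ801Spec

/-!
# Row LT, tower T7, node T7.L2Q.1.H2a.A.0b `CQ801.BaseAQC801` (registry row 2984): CUT by
# helper87 -- the PROVED top

OFF-MAIN.  Complete proofs, nothing assumed.  ADDITIVE (new names only, suffix `87`).

    baseAQC801_of87 : DatQC87 F → StepMDatQC87 F → UpGoodQC87 F → DnGoodQC87 F → IwSuppC87 F
        → IwSuppC87 ℚ → DnStabQC87 F → ShapeQC87 F → CQ801.BaseAQC801 T7.ekMulti F   (VERBATIM)

Induction on the word of sphere means on the level of the data; the family is chosen by the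
axiom of choice; the leaves of the cut of `BaseAQC484` are applied to the data of every word.
-/

set_option autoImplicit false

open AutomorphicForm IsDedekindDomain NumberField MeasureTheory
open scoped ComplexConjugate

noncomputable section

namespace Fermat.Agent.LT.T7.BQ87

open Fermat.Agent.LT Fermat.Agent.LT.H556 Fermat.Agent.LT.H556.A0 Fermat.Agent.LT.T7
  Fermat.Agent.LT.T7.H305 Fermat.Agent.LT.T7.L2Q Fermat.Agent.LT.T7.H893
  Fermat.Agent.LT.T7.H962 Fermat.Agent.LT.T7.H732 Fermat.Agent.LT.T7.MQ298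
  Fermat.Agent.LT.T7.CQ801 Fermat.Agent.LT.T7.PQ484

attribute [local instance] Fermat.Agent.LT.T5.instMeasurableSpaceG

variable {F : Type} [Field F] [NumberField F]

theorem wordEv_nil87 (C : EigData F) : wordEv ([] : List (Gen F)) C = 1 := by
  simp [wordEv]

theorem wordEv_cons87 (x : Gen F) (W : List (Gen F)) (C : EigData F) :
    wordEv (x :: W) C = x.ev C * wordEv W C := by
  simp [wordEv]

/-- **THE TOP OF THE CUT of `BaseAQC801`**: the base family for the words of sphere means. -/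
theorem baseAQC801_of87 (hD : DatQC87 F) (hM : StepMDatQC87 F) (hU : UpGoodQC87 F)
    (hW : DnGoodQC87 F) (hS' : IwSuppC87 F) (hS : IwSuppC87 ℚ) (hC : DnStabQC87 F)
    (hP : ShapeQC87 F) : BaseAQC801 ekMulti F := by
  intro h3 hiq Φ hΦ hconst hek B hB hram 𝔫 hlev T₀ n n₀ m hexp c hc
  obtain ⟨D₀, hD₀⟩ := hD h3 hiq Φ hΦ hconst hek B hB hram 𝔫 hlev T₀ n n₀ m hexp c hc
  -- the data of every word
  have key : ∀ W : List (Gen F), IsMWord801 W →
      ∃ E : DatQ87 F, IsDatQ87 Φ (toBase962_732 B) 𝔫 c T₀ n m E ∧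
        (∀ (χ : G F → ℂ) (C : EigData F),
          IsEigFn (toBase962_732 B).𝔑₀ (toBase962_732 B).R'.r 2 (toBase962_732 B).o χ C →
          ∀ y : G F, T5.Rconv (toBase962_732 B).R'.μ (E.up (upI (K' := F) 𝔫)) χ y
            = wordEv W C * T5.Rconv (toBase962_732 B).R'.μ (D₀.up (upI (K' := F) 𝔫)) χ y) ∧
        ∀ (t : QWt) (χ : G ℚ → ℂ) (cd : EigData ℚ) (C : EigData F),
          IsEigFnQ t 𝔫 (toBase962_732 B).R.r (toBase962_732 B).u χ cd →
          IsBCDataQ t cd C (toBase962_732 B).S →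
          ∀ y : G ℚ, T5.Rconv (toBase962_732 B).R.μ (E.dn t 𝔫) χ y
            = wordEv W C * T5.Rconv (toBase962_732 B).R.μ (D₀.dn t 𝔫) χ y := by
    intro W
    induction W with
    | nil =>
      intro _
      refine ⟨D₀, hD₀, fun χ C _ y => ?_, fun t χ cd C _ _ y => ?_⟩
      · rw [wordEv_nil87, one_mul]
      · rw [wordEv_nil87, one_mul]
    | cons x W ih =>
      intro hxW
      have hW' : IsMWord801 W := fun z hz => hxW z (List.mem_cons_of_mem x hz)
      obtain ⟨w, d, hd, hx⟩ := hxW x List.mem_cons_self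
      obtain ⟨E, hE, hEu, hEd⟩ := ih hW'
      obtain ⟨E', hE', hu, hdn⟩ :=
        hM h3 hiq Φ hΦ hconst hek B hB hram 𝔫 hlev T₀ n n₀ m hexp c hc E hE w d hd
      have hev : ∀ C : EigData F, x.ev C = C.m w d := fun C => by rw [hx]; rfl
      refine ⟨E', hE', fun χ C hχ y => ?_, fun t χ cd C hχ hbc y => ?_⟩
      · rw [hu χ C hχ y, hEu χ C hχ y, wordEv_cons87, hev, mul_assoc]
      · rw [hdn t χ cd C hχ hbc y, hEd t χ cd C hχ hbc y, wordEv_cons87, hev, mul_assoc]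
  have : Nonempty (DatQ87 F) := ⟨D₀⟩
  choose! fam hfam using key
  have hnil : IsMWord801 ([] : List (Gen F)) := fun z hz => absurd hz List.not_mem_nil
  -- the scalar of the base
  obtain ⟨-, -, -, -, c₁, u5, u6⟩ :=
    hU h3 hiq Φ hΦ hconst hek B hB hram 𝔫 hlev T₀ n n₀ m hexp c hc D₀ hD₀
  -- the word-free properties for given data
  have good : ∀ E : DatQ87 F, IsDatQ87 Φ (toBase962_732 B) 𝔫 c T₀ n m E →
      IsGoodAQ801 (toBase962_732 B) 𝔫 c T₀ n m (E.up (upI (K' := F) 𝔫))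
        (fun t => E.dn t 𝔫) := by
    intro E hE
    obtain ⟨u1, u2, u3, u4, -⟩ :=
      hU h3 hiq Φ hΦ hconst hek B hB hram 𝔫 hlev T₀ n n₀ m hexp c hc E hE
    have hdn := hW h3 hiq Φ hΦ hconst hek B hB hram 𝔫 hlev T₀ n n₀ m hexp c hc E hE
    have hs_up := hS' (upI (K' := F) 𝔫) E.P' 2 (toBase962_732 B).o
      (fun j _ => (hlev.mem_S'_g ((toBase962_732 B).o j)).1 (hB.orbit_level j))
      (fun j _ h => hE.out ((toBase962_732 B).o j) h (hB.orbit_level j))
      (E.up (upI (K' := F) 𝔫)) u1.supp u4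
    have hs_dn : ∀ t : QWt, ∃ C : Set (G ℚ), IsCompact C ∧
        T5.H32.IsIwSupported32 1 (fun _ => (toBase962_732 B).u) C (E.dn t 𝔫) := fun t =>
      hS 𝔫 E.P 1 (fun _ => (toBase962_732 B).u) (fun _ _ => hlev.u_level)
        (fun _ _ h => hE.frame_dn.prime (toBase962_732 B).u h hlev.u_level)
        (E.dn t 𝔫) (hdn t).1.supp (hdn t).2.2.2.1
    exact ⟨u1, ⟨u2, u3⟩, fun t => (hdn t).1, fun t => ⟨(hdn t).2.1, (hdn t).2.2.1⟩, hs_up,
      hs_dn, hP h3 hiq Φ hΦ hconst hek B hB hram 𝔫 hlev T₀ n n₀ m hexp c hc E hE⟩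
  refine ⟨c₁, fun W => (fam W).up (upI (K' := F) 𝔫), fun W t => (fam W).dn t 𝔫, ?_⟩
  refine ⟨fun W hWm => good (fam W) (hfam W hWm).1, fun W hWm χ C hχ y => ?_, u6,
    fun W hWm t χ cd C hχ hbc y => ?_, ?_⟩
  · rw [(hfam W hWm).2.1 χ C hχ y, u5 χ C hχ y, mul_assoc]
  · have h1 := (hfam W hWm).2.2 t χ cd C hχ hbc y
    have h2 := (hfam [] hnil).2.2 t χ cd C hχ hbc y
    rw [wordEv_nil87, one_mul] at h2
    rw [h1, h2]
  · have hE := (hfam [] hnil).1
    have hdn := hW h3 hiq Φ hΦ hconst hek B hB hram 𝔫 hlev T₀ n n₀ m hexp c hc (fam []) hE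
    have h := hC h3 hiq Φ B hB hram 𝔫 hlev (fam []).P hE.frame_dn.prime
      (fun t => (fam []).dn t 𝔫) (fun t => (hdn t).1) (fun t => (hdn t).2.2.2.1)
      (fun t => (hdn t).2.2.2.2)
    exact ⟨h.wfn, h.cls, h.comm⟩

end Fermat.Agent.LT.T7.BQ87

end
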